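/-
GATE-C / C4 (G2-u), part (U1): the `S`-unit theorem in rank form.

For a number field `K` and a finite set `S` of finite primes, the group `S.unit K` of `S`-units
(Mathlib's `Set.unit`) is finitely generated of rank `rank (𝓞 K)ˣ + |S|`.
-/
import Fermat.Agent.S14.SI.SUnitsCount

set_option autoImplicit false

open NumberField IsDedekindDomain Module

namespace Fermat.Agent.GC.SUnitHQ

open Fermat.Agent.S14.SI.SU

section Abstract

/-- A nonzero subgroup of `ℤ` has rank one. -/
theorem finrank_int_submodule_of_ne_bot (I : Submodule ℤ ℤ) (hI : I ≠ ⊥) : finrank ℤ I = 1 := by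
  have h1 : finrank ℤ I ≤ 1 := by
    have := Submodule.finrank_le I
    rwa [Module.finrank_self] at this
  have h2 : 0 < finrank ℤ I := by
    rw [Module.finrank_pos_iff_exists_ne_zero]
    obtain ⟨x, hx, hx0⟩ := (Submodule.ne_bot_iff I).mp hI
    exact ⟨⟨x, hx⟩, fun h => hx0 (congrArg Subtype.val h)⟩
  omega

/-- finite generation and rank through a homomorphism to `ℤ` with nonzero image -/
theorem finite_finrank_of_hom_int {A : Type*} [AddCommGroup A] (f : A →+ ℤ)
    (hf : ∃ a, f a ≠ 0) (hker : Module.Finite ℤ f.ker) :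
    Module.Finite ℤ A ∧ finrank ℤ A = finrank ℤ f.ker + 1 := by
  set f' : A →ₗ[ℤ] ℤ := f.toIntLinearMap with hf'
  have hkerfin : Module.Finite ℤ (LinearMap.ker f') := hker
  have hq : (A ⧸ LinearMap.ker f') ≃ₗ[ℤ] LinearMap.range f' := LinearMap.quotKerEquivRange f'
  have hrfin : Module.Finite ℤ (LinearMap.range f') := inferInstance
  have hqfin : Module.Finite ℤ (A ⧸ LinearMap.ker f') := Module.Finite.equiv hq.symm
  have hA : Module.Finite ℤ A := Module.Finite.of_submodule_quotient (LinearMap.ker f')
  refine ⟨hA, ?_⟩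
  have hrn := Submodule.finrank_quotient_add_finrank (LinearMap.ker f')
  have hr1 : finrank ℤ (LinearMap.range f') = 1 := by
    apply finrank_int_submodule_of_ne_bot
    obtain ⟨a, ha⟩ := hf
    intro hbot
    have : f' a ∈ LinearMap.range f' := ⟨a, rfl⟩
    rw [hbot, Submodule.mem_bot] at this
    exact ha this
  rw [hq.finrank_eq, hr1] at hrn
  have hk : finrank ℤ (LinearMap.ker f') = finrank ℤ f.ker := rfl
  omega

end Abstract

variable {K : Type*} [Field K] [NumberField K]

/-- The `∅`-units are the units of `𝓞 K`. -/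
noncomputable def unitEmptyEquiv :
    (𝓞 K)ˣ ≃* (∅ : Set (HeightOneSpectrum (𝓞 K))).unit K :=
  (MonoidHom.ofInjective (f := Units.map (algebraMap (𝓞 K) K : 𝓞 K →* K))
    (Units.map_injective (FaithfulSMul.algebraMap_injective (𝓞 K) K))).trans
    (MulEquiv.subgroupCongr range_unitsMap_eq_unit_empty)

theorem finite_finrank_unit_empty :
    Module.Finite ℤ (Additive ((∅ : Set (HeightOneSpectrum (𝓞 K))).unit K)) ∧
      finrank ℤ (Additive ((∅ : Set (HeightOneSpectrum (𝓞 K))).unit K)) = Units.rank K := by
  have e : Additive (𝓞 K)ˣ ≃ₗ[ℤ] Additive ((∅ : Set (HeightOneSpectrum (𝓞 K))).unit K) :=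
    (MulEquiv.toAdditive (unitEmptyEquiv (K := K))).toIntLinearEquiv
  refine ⟨Module.Finite.equiv e, ?_⟩
  rw [← e.finrank_eq]
  exact Units.finrank_eq K

/-- the `v`-adic valuation as an additive map on the `(insert v S)`-units -/
noncomputable def valAdd (S : Set (HeightOneSpectrum (𝓞 K))) (v : HeightOneSpectrum (𝓞 K)) :
    Additive (S.unit K) →+ ℤ where
  toFun x := Multiplicative.toAdd (valU v ((Additive.toMul x : S.unit K) : Kˣ))
  map_zero' := by
    change Multiplicative.toAdd (valU v (((1 : S.unit K)) : Kˣ)) = 0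
    rw [Subgroup.coe_one, map_one]; rfl
  map_add' x y := by
    change Multiplicative.toAdd (valU v ((Additive.toMul x * Additive.toMul y : S.unit K) : Kˣ)) = _
    rw [Subgroup.coe_mul, map_mul]; rfl

theorem valAdd_apply (S : Set (HeightOneSpectrum (𝓞 K))) (v : HeightOneSpectrum (𝓞 K))
    (x : Additive (S.unit K)) :
    valAdd S v x = Multiplicative.toAdd (valU v ((Additive.toMul x : S.unit K) : Kˣ)) := rfl

theorem valAdd_eq_zero_iff (S : Set (HeightOneSpectrum (𝓞 K))) (v : HeightOneSpectrum (𝓞 K))
    (x : Additive (S.unit K)) :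
    valAdd S v x = 0 ↔ valU v ((Additive.toMul x : S.unit K) : Kˣ) = 1 := by
  rw [valAdd_apply]
  constructor
  · intro h
    exact Multiplicative.toAdd.injective h
  · intro h
    rw [h]; rfl

/-- induction step: adding one prime raises the rank by one -/
theorem finite_finrank_unit_insert (S : Set (HeightOneSpectrum (𝓞 K)))
    (v : HeightOneSpectrum (𝓞 K)) (hv : v ∉ S)
    (hS : Module.Finite ℤ (Additive (S.unit K))) :
    Module.Finite ℤ (Additive ((insert v S).unit K)) ∧
      finrank ℤ (Additive ((insert v S).unit K)) = finrank ℤ (Additive (S.unit K)) + 1 := by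
  set f := valAdd (insert v S) v with hf
  have hle : S.unit K ≤ (insert v S).unit K := unit_mono (Set.subset_insert v S)
  -- the kernel is `S.unit K`
  let incl : Additive (S.unit K) →+ Additive ((insert v S).unit K) :=
    MonoidHom.toAdditive (Subgroup.inclusion hle)
  have hincl_inj : Function.Injective incl := fun x y h =>
    Subgroup.inclusion_injective hle h
  have hrange : incl.range = f.ker := by
    ext a
    rw [AddMonoidHom.mem_ker, hf, valAdd_eq_zero_iff]
    constructor
    · rintro ⟨x, rfl⟩
      exact valU_mem_unit (Additive.toMul x) hv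
    · intro ha
      have haS : ((Additive.toMul a : (insert v S).unit K) : Kˣ) ∈ S.unit K := by
        rw [mem_unit_iff]
        intro w hw
        by_cases hwv : w = v
        · rw [hwv]; exact ha
        · have haA := (Additive.toMul a : (insert v S).unit K).2
          rw [mem_unit_iff] at haA
          exact haA w (fun hmem => (Set.mem_insert_iff.mp hmem).elim hwv hw)
      exact ⟨Additive.ofMul ⟨_, haS⟩, rfl⟩
  have e : Additive (S.unit K) ≃ₗ[ℤ] f.ker :=
    ((AddMonoidHom.ofInjective hincl_inj).trans (AddEquiv.addSubgroupCongr hrange)).toIntLinearEquiv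
  have hkerfin : Module.Finite ℤ f.ker := Module.Finite.equiv e
  have hne : ∃ a, f a ≠ 0 := by
    obtain ⟨x, hx1, hx2⟩ := exists_unit_away v
    have hxA : x ∈ (insert v S).unit K := by
      intro w hw
      exact hx1 w (fun hwv => hw (hwv ▸ Set.mem_insert v S))
    refine ⟨Additive.ofMul ⟨x, hxA⟩, ?_⟩
    rw [hf, Ne, valAdd_eq_zero_iff]
    intro h
    exact hx2 ((valU_eq_one_iff v x).mp h)
  obtain ⟨h1, h2⟩ := finite_finrank_of_hom_int f hne hkerfin
  exact ⟨h1, by rw [h2, e.finrank_eq]⟩

/-- **`S`-unit theorem, rank form**: the `S`-units of a number field form a finitely generated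
abelian group of rank `rank (𝓞 K)ˣ + |S|`. -/
theorem finite_finrank_unit_finset (S : Finset (HeightOneSpectrum (𝓞 K))) :
    Module.Finite ℤ (Additive ((S : Set (HeightOneSpectrum (𝓞 K))).unit K)) ∧
      finrank ℤ (Additive ((S : Set (HeightOneSpectrum (𝓞 K))).unit K)) =
        Units.rank K + S.card := by
  classical
  induction S using Finset.induction_on with
  | empty =>
    rw [Finset.coe_empty, Finset.card_empty, add_zero]
    exact finite_finrank_unit_empty
  | insert v S hv ih =>
    rw [Finset.coe_insert, Finset.card_insert_of_notMem hv]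
    obtain ⟨h1, h2⟩ := finite_finrank_unit_insert (S : Set (HeightOneSpectrum (𝓞 K))) v
      (by simpa using hv) ih.1
    exact ⟨h1, by rw [h2, ih.2, add_assoc]⟩

instance instFiniteUnitFinset (S : Finset (HeightOneSpectrum (𝓞 K))) :
    Module.Finite ℤ (Additive ((S : Set (HeightOneSpectrum (𝓞 K))).unit K)) :=
  (finite_finrank_unit_finset S).1

theorem finrank_unit_finset (S : Finset (HeightOneSpectrum (𝓞 K))) :
    finrank ℤ (Additive ((S : Set (HeightOneSpectrum (𝓞 K))).unit K)) = Units.rank K + S.card :=
  (finite_finrank_unit_finset S).2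

end Fermat.Agent.GC.SUnitHQ

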