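/-
GATE-C / C4 (G2-u), part (U2a): adic valuations and ring automorphisms.

For a Dedekind domain `R` with fraction field `F`, a ring automorphism `e` of `R` extending to
`E : F ≃+* F`, and a height one prime `v`:  `(e⁻¹ v).valuation x = v.valuation (E x)`.
-/
import Mathlib

set_option autoImplicit false

open IsDedekindDomain WithZero

namespace Fermat.Agent.GC.SUnitHQ

/-- an element `≤ 1` of `ℤᵐ⁰` is determined by the set of `n : ℕ` with `a ≤ exp (-n)` -/
theorem le_of_forall_le_exp_neg {a b : ℤᵐ⁰} (hb : b ≤ 1)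
    (h : ∀ n : ℕ, b ≤ exp (-(n : ℤ)) → a ≤ exp (-(n : ℤ))) : a ≤ b := by
  by_cases hb0 : b = 0
  · subst hb0
    by_contra hne
    have ha0 : a ≠ 0 := fun h0 => hne (h0 ▸ le_rfl)
    -- `a = exp k`
    have hk := exp_log ha0
    have h1 := h (Int.toNat (-(log a)) + 1) zero_le
    have h2 : exp (log a) ≤ exp (-((Int.toNat (-(log a)) + 1 : ℕ) : ℤ)) := by
      rw [hk]; exact h1
    rw [exp_le_exp] at h2
    have : -(log a) ≤ (Int.toNat (-(log a)) : ℤ) := Int.self_le_toNat _
    push_cast at h2
    omega
  · have hk := exp_log hb0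
    have hlog : log b ≤ 0 := by
      rw [log_le_iff_le_exp hb0, exp_zero]; exact hb
    have h1 := h (Int.toNat (-(log b))) (by
      rw [Int.toNat_of_nonneg (by omega), neg_neg, hk])
    rwa [Int.toNat_of_nonneg (by omega), neg_neg, hk] at h1

theorem eq_of_forall_le_exp_neg_iff {a b : ℤᵐ⁰} (ha : a ≤ 1) (hb : b ≤ 1)
    (h : ∀ n : ℕ, a ≤ exp (-(n : ℤ)) ↔ b ≤ exp (-(n : ℤ))) : a = b :=
  le_antisymm (le_of_forall_le_exp_neg hb fun n => (h n).mpr)
    (le_of_forall_le_exp_neg ha fun n => (h n).mp)

set_option linter.unusedSectionVars false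

variable {R : Type*} [CommRing R] [IsDedekindDomain R]

/-- pull back a height one prime along a ring automorphism -/
noncomputable def comapAut (e : R ≃+* R) (v : HeightOneSpectrum R) : HeightOneSpectrum R :=
  HeightOneSpectrum.comap (e : R →+* R) e.surjective v

theorem mem_comapAut (e : R ≃+* R) (v : HeightOneSpectrum R) (r : R) :
    r ∈ (comapAut e v).asIdeal ↔ e r ∈ v.asIdeal := Iff.rfl

theorem comapAut_asIdeal (e : R ≃+* R) (v : HeightOneSpectrum R) :
    (comapAut e v).asIdeal = v.asIdeal.comap (e : R →+* R) := rfl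

theorem comapAut_asIdeal_pow (e : R ≃+* R) (v : HeightOneSpectrum R) (n : ℕ) :
    (comapAut e v).asIdeal ^ n = (v.asIdeal ^ n).comap (e : R →+* R) := by
  rw [comapAut_asIdeal]
  have h1 : ∀ I : Ideal R, I.comap (e : R →+* R) = I.map (e.symm : R →+* R) := fun I =>
    (Ideal.map_symm (f := e) (I := I)).symm
  rw [h1, h1, Ideal.map_pow]

theorem intValuation_comapAut (e : R ≃+* R) (v : HeightOneSpectrum R) (r : R) :
    (comapAut e v).intValuation r = v.intValuation (e r) := by
  apply eq_of_forall_le_exp_neg_iff (HeightOneSpectrum.intValuation_le_one _ _)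
    (HeightOneSpectrum.intValuation_le_one _ _)
  intro n
  rw [HeightOneSpectrum.intValuation_le_pow_iff_mem, HeightOneSpectrum.intValuation_le_pow_iff_mem,
    comapAut_asIdeal_pow]
  rfl

variable {F : Type*} [Field F] [Algebra R F] [IsFractionRing R F]

theorem valuation_comapAut (e : R ≃+* R) (E : F ≃+* F)
    (hE : ∀ r : R, E (algebraMap R F r) = algebraMap R F (e r))
    (v : HeightOneSpectrum R) (x : F) :
    (comapAut e v).valuation F x = v.valuation F (E x) := by
  obtain ⟨a, b, hb, rfl⟩ := IsFractionRing.div_surjective (A := R) x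
  rw [map_div₀, map_div₀, map_div₀, hE, hE, HeightOneSpectrum.valuation_of_algebraMap,
    HeightOneSpectrum.valuation_of_algebraMap, HeightOneSpectrum.valuation_of_algebraMap,
    HeightOneSpectrum.valuation_of_algebraMap, intValuation_comapAut, intValuation_comapAut]

theorem comapAut_comapAut_symm (e : R ≃+* R) (v : HeightOneSpectrum R) :
    comapAut e (comapAut e.symm v) = v := by
  ext r
  rw [mem_comapAut, mem_comapAut, RingEquiv.symm_apply_apply]

theorem comapAut_symm_comapAut (e : R ≃+* R) (v : HeightOneSpectrum R) :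
    comapAut e.symm (comapAut e v) = v := by
  ext r
  rw [mem_comapAut, mem_comapAut, RingEquiv.apply_symm_apply]

end Fermat.Agent.GC.SUnitHQ
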