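/-
GATE-C / C4 (G2-u), part (U2): the Galois action on the `S`-units of `L`, `S` a set of primes of
`K`; fixed points are the `S`-units of `K`.
-/
import Fermat.Agent.GC.SUnitHQ.Rank
import Fermat.Agent.GC.SUnitHQ.ValAut

set_option autoImplicit false

open NumberField IsDedekindDomain Module

namespace Fermat.Agent.GC.SUnitHQ

open Fermat.Agent.S14.SI.SU

open scoped WithZero

set_option linter.unusedSectionVars false
set_option linter.style.haveILetI false

variable {K L : Type*} [Field K] [NumberField K] [Field L] [NumberField L] [Algebra K L]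

/-- the primes of `L` lying above a set `S` of primes of `K` -/
def above (S : Set (HeightOneSpectrum (𝓞 K))) : Set (HeightOneSpectrum (𝓞 L)) :=
  {w | w.under (𝓞 K) ∈ S}

theorem mem_above {S : Set (HeightOneSpectrum (𝓞 K))} {w : HeightOneSpectrum (𝓞 L)} :
    w ∈ above (L := L) S ↔ w.under (𝓞 K) ∈ S := Iff.rfl

/-- the ring automorphism of `𝓞 L` induced by `σ ∈ Gal(L/K)` -/
noncomputable def intAut (σ : L ≃ₐ[K] L) : 𝓞 L ≃+* 𝓞 L :=
  MulSemiringAction.toRingEquiv (L ≃ₐ[K] L) (𝓞 L) σ

theorem coe_intAut (σ : L ≃ₐ[K] L) (x : 𝓞 L) : ((intAut σ x : 𝓞 L) : L) = σ (x : L) := rfl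

theorem intAut_algebraMap (σ : L ≃ₐ[K] L) (y : 𝓞 K) :
    intAut σ (algebraMap (𝓞 K) (𝓞 L) y) = algebraMap (𝓞 K) (𝓞 L) y := by
  apply RingOfIntegers.ext
  rw [coe_intAut]
  change σ (algebraMap K L (y : K)) = algebraMap K L (y : K)
  exact σ.commutes _

theorem under_comapAut (σ : L ≃ₐ[K] L) (w : HeightOneSpectrum (𝓞 L)) :
    (comapAut (intAut σ) w).under (𝓞 K) = w.under (𝓞 K) := by
  ext y
  change algebraMap (𝓞 K) (𝓞 L) y ∈ (comapAut (intAut σ) w).asIdeal ↔
    algebraMap (𝓞 K) (𝓞 L) y ∈ w.asIdeal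
  rw [mem_comapAut, intAut_algebraMap]

theorem comapAut_mem_above_iff (σ : L ≃ₐ[K] L) (S : Set (HeightOneSpectrum (𝓞 K)))
    (w : HeightOneSpectrum (𝓞 L)) :
    comapAut (intAut σ) w ∈ above (L := L) S ↔ w ∈ above (L := L) S := by
  rw [mem_above, mem_above, under_comapAut]

theorem valuation_galois (σ : L ≃ₐ[K] L) (w : HeightOneSpectrum (𝓞 L)) (x : L) :
    w.valuation L (σ x) = (comapAut (intAut σ) w).valuation L x :=
  (valuation_comapAut (intAut σ) (σ : L ≃+* L) (fun _ => rfl) w x).symm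

/-- `Gal(L/K)` preserves the `S`-units of `L` -/
theorem map_mem_unit_above (σ : L ≃ₐ[K] L) (S : Set (HeightOneSpectrum (𝓞 K))) (x : Lˣ)
    (hx : x ∈ (above (L := L) S).unit L) :
    Units.map (σ : L →* L) x ∈ (above (L := L) S).unit L := by
  intro w hw
  rw [Units.coe_map]
  change w.valuation L (σ (x : L)) = 1
  rw [valuation_galois]
  exact hx _ (fun h => hw ((comapAut_mem_above_iff σ S w).mp h))

/-- the action of `σ` on the `S`-units of `L` -/
noncomputable def sAct (S : Set (HeightOneSpectrum (𝓞 K))) (σ : L ≃ₐ[K] L) :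
    (above (L := L) S).unit L →* (above (L := L) S).unit L :=
  ((Units.map (σ : L →* L)).comp ((above (L := L) S).unit L).subtype).codRestrict _
    (fun x => map_mem_unit_above σ S x x.2)

theorem coe_sAct (S : Set (HeightOneSpectrum (𝓞 K))) (σ : L ≃ₐ[K] L)
    (x : (above (L := L) S).unit L) : (((sAct S σ x : (above (L := L) S).unit L) : Lˣ) : L) =
      σ ((x : Lˣ) : L) := rfl

theorem sAct_one (S : Set (HeightOneSpectrum (𝓞 K))) :
    sAct (L := L) S (1 : L ≃ₐ[K] L) = MonoidHom.id _ := by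
  ext x
  rfl

theorem sAct_mul (S : Set (HeightOneSpectrum (𝓞 K))) (σ τ : L ≃ₐ[K] L) :
    sAct S (σ * τ) = (sAct S σ).comp (sAct S τ) := by
  ext x
  rfl

theorem sAct_pow (S : Set (HeightOneSpectrum (𝓞 K))) (σ : L ≃ₐ[K] L) (n : ℕ)
    (x : (above (L := L) S).unit L) : ((sAct S σ)^[n]) x = sAct S (σ ^ n) x := by
  induction n generalizing x with
  | zero => rw [pow_zero, sAct_one]; rfl
  | succ n ih =>
    rw [Function.iterate_succ_apply', ih, pow_succ', sAct_mul]
    rfl

/-! ### the `S`-units of `K` inside the `S`-units of `L` -/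

theorem zpow_eq_one_int {a : ℤᵐ⁰} {n : ℕ} (hn : n ≠ 0) (h : a ^ n = 1) : a = 1 := by
  have ha0 : a ≠ 0 := by
    rintro rfl
    rw [zero_pow hn] at h
    exact zero_ne_one h
  have hk := WithZero.exp_log ha0
  rw [← hk, ← WithZero.exp_nsmul, ← WithZero.exp_zero, WithZero.exp_inj, nsmul_eq_mul] at h
  have : WithZero.log a = 0 := by
    rcases mul_eq_zero.mp h with h0 | h0
    · exact absurd (by exact_mod_cast h0) hn
    · exact h0
  rw [← hk, this, WithZero.exp_zero]

theorem valuation_algebraMap_eq_one_iff (w : HeightOneSpectrum (𝓞 L)) (y : K) :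
    w.valuation L (algebraMap K L y) = 1 ↔ (w.under (𝓞 K)).valuation K y = 1 := by
  haveI : w.asIdeal.LiesOver (w.under (𝓞 K)).asIdeal := ⟨rfl⟩
  rw [← HeightOneSpectrum.valuation_liesOver L (w.under (𝓞 K)) w y]
  constructor
  · intro h
    exact zpow_eq_one_int
      (Ideal.IsDedekindDomain.ramificationIdx'_ne_zero_of_liesOver w.asIdeal
        (w.under (𝓞 K)).ne_bot) h
  · intro h
    rw [h, one_pow]

/-- every prime of `K` has a prime of `L` above it -/
theorem exists_under_eq (v : HeightOneSpectrum (𝓞 K)) :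
    ∃ w : HeightOneSpectrum (𝓞 L), w.under (𝓞 K) = v := by
  obtain ⟨P, hPm, hP⟩ := Ideal.exists_maximal_ideal_liesOver_of_isIntegral (S := 𝓞 L) v.asIdeal
  have hne : P ≠ ⊥ := by
    rintro rfl
    apply v.ne_bot
    rw [hP.over]
    exact Ideal.under_bot (𝓞 K) (𝓞 L)
  refine ⟨⟨P, hPm.isPrime, hne⟩, ?_⟩
  ext y
  change y ∈ P.under (𝓞 K) ↔ y ∈ v.asIdeal
  rw [← hP.over]

/-- the inclusion of the `S`-units of `K` into the `S`-units of `L` -/
noncomputable def baseSUnits (S : Set (HeightOneSpectrum (𝓞 K))) :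
    S.unit K →* (above (L := L) S).unit L :=
  ((Units.map (algebraMap K L : K →* L)).comp (S.unit K).subtype).codRestrict _ (fun x => by
    intro w hw
    rw [MonoidHom.comp_apply, Units.coe_map]
    change w.valuation L (algebraMap K L ((x : Kˣ) : K)) = 1
    rw [valuation_algebraMap_eq_one_iff]
    exact x.2 _ hw)

theorem coe_baseSUnits (S : Set (HeightOneSpectrum (𝓞 K))) (x : S.unit K) :
    (((baseSUnits (L := L) S x : (above (L := L) S).unit L) : Lˣ) : L) =
      algebraMap K L ((x : Kˣ) : K) := rfl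

theorem baseSUnits_injective (S : Set (HeightOneSpectrum (𝓞 K))) :
    Function.Injective (baseSUnits (L := L) S) := by
  intro x y h
  apply Subtype.ext
  apply Units.ext
  apply (algebraMap K L).injective
  rw [← coe_baseSUnits, ← coe_baseSUnits, h]

theorem sAct_baseSUnits (S : Set (HeightOneSpectrum (𝓞 K))) (σ : L ≃ₐ[K] L) (x : S.unit K) :
    sAct S σ (baseSUnits S x) = baseSUnits S x := by
  apply Subtype.ext
  apply Units.ext
  rw [coe_sAct, coe_baseSUnits, AlgEquiv.commutes]

/-- an `S`-unit of `L` fixed by the whole Galois group comes from an `S`-unit of `K` -/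
theorem mem_range_baseSUnits_of_fixed [IsGalois K L] (S : Set (HeightOneSpectrum (𝓞 K)))
    (x : (above (L := L) S).unit L) (h : ∀ σ : L ≃ₐ[K] L, sAct S σ x = x) :
    x ∈ (baseSUnits (L := L) S).range := by
  have h1 : ((x : Lˣ) : L) ∈ Set.range (algebraMap K L) := by
    rw [IsGalois.mem_range_algebraMap_iff_fixed]
    intro σ
    rw [← coe_sAct, h σ]
  obtain ⟨y, hy⟩ := h1
  have hy0 : y ≠ 0 := by
    rintro rfl
    rw [map_zero] at hy
    exact (x : Lˣ).ne_zero hy.symm
  have hyS : Units.mk0 y hy0 ∈ S.unit K := by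
    intro v hv
    obtain ⟨w, hw⟩ := exists_under_eq (L := L) v
    have hwS : w ∉ above (L := L) S := by
      rw [mem_above, hw]; exact hv
    have := x.2 w hwS
    rw [← hy, valuation_algebraMap_eq_one_iff, hw] at this
    exact this
  refine ⟨⟨Units.mk0 y hy0, hyS⟩, ?_⟩
  apply Subtype.ext
  apply Units.ext
  rw [coe_baseSUnits]
  exact hy

end Fermat.Agent.GC.SUnitHQ
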