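/-
GATE-C / C4 (G2-u), part (U3): counting the primes of `L` above a finite set `S` of primes of `K`
in a Galois extension of prime degree `p`: each `v ∈ S` has `1` or `p` primes above it.
-/
import Fermat.Agent.GC.SUnitHQ.Action

set_option autoImplicit false

open NumberField IsDedekindDomain Module

namespace Fermat.Agent.GC.SUnitHQ

set_option linter.unusedSectionVars false

variable {K L : Type*} [Field K] [NumberField K] [Field L] [NumberField L] [Algebra K L]

/-- the primes of `L` above the prime `v` of `K` -/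
def fib (v : HeightOneSpectrum (𝓞 K)) : Set (HeightOneSpectrum (𝓞 L)) :=
  {w | w.under (𝓞 K) = v}

theorem image_asIdeal_fib (v : HeightOneSpectrum (𝓞 K)) :
    HeightOneSpectrum.asIdeal '' (fib (L := L) v) = v.asIdeal.primesOver (𝓞 L) := by
  ext P
  constructor
  · rintro ⟨w, hw, rfl⟩
    refine ⟨w.isPrime, ⟨?_⟩⟩
    have : w.under (𝓞 K) = v := hw
    rw [← this]
    rfl
  · rintro ⟨hP, hPv⟩
    have hne : P ≠ ⊥ := by
      rintro rfl
      apply v.ne_bot
      rw [hPv.over]
      exact Ideal.under_bot (𝓞 K) (𝓞 L)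
    refine ⟨⟨P, hP, hne⟩, ?_, rfl⟩
    change HeightOneSpectrum.under (𝓞 K) ⟨P, hP, hne⟩ = v
    ext y
    change y ∈ P.under (𝓞 K) ↔ y ∈ v.asIdeal
    rw [← hPv.over]

theorem asIdeal_injective :
    Function.Injective (HeightOneSpectrum.asIdeal : HeightOneSpectrum (𝓞 L) → Ideal (𝓞 L)) :=
  fun _ _ h => HeightOneSpectrum.ext h

theorem fib_finite (v : HeightOneSpectrum (𝓞 K)) : (fib (L := L) v).Finite := by
  have h : (HeightOneSpectrum.asIdeal '' (fib (L := L) v)).Finite := by
    rw [image_asIdeal_fib]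
    exact IsDedekindDomain.primesOver_finite v.asIdeal (𝓞 L)
  exact Set.Finite.of_finite_image h asIdeal_injective.injOn

theorem ncard_fib (v : HeightOneSpectrum (𝓞 K)) :
    (fib (L := L) v).ncard = (v.asIdeal.primesOver (𝓞 L)).ncard := by
  rw [← image_asIdeal_fib, Set.ncard_image_of_injective _ asIdeal_injective]

/-- in a Galois extension of prime degree, a prime has `1` or `p` primes above it -/
theorem ncard_fib_eq_one_or [IsGalois K L] {p : ℕ} (hp : p.Prime) (hdeg : finrank K L = p)
    (v : HeightOneSpectrum (𝓞 K)) :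
    (fib (L := L) v).ncard = 1 ∨ (fib (L := L) v).ncard = p := by
  have : FiniteDimensional K L := Module.finite_of_finrank_pos (by rw [hdeg]; exact hp.pos)
  have hG : IsGaloisGroup (L ≃ₐ[K] L) (𝓞 K) (𝓞 L) :=
    IsGaloisGroup.of_isFractionRing (L ≃ₐ[K] L) (𝓞 K) (𝓞 L) K L
  have h := Ideal.ncard_primesOver_mul_ramificationIdxIn_mul_inertiaDegIn v.asIdeal (𝓞 L)
    (L ≃ₐ[K] L)
  rw [IsGalois.card_aut_eq_finrank, hdeg] at h
  rw [ncard_fib]
  have hdvd : (v.asIdeal.primesOver (𝓞 L)).ncard ∣ p := Dvd.intro _ h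
  exact (Nat.dvd_prime hp).mp hdvd

open Classical in
/-- the primes of `L` above the finite set `S`, as a finset -/
noncomputable def aboveF (S : Finset (HeightOneSpectrum (𝓞 K))) :
    Finset (HeightOneSpectrum (𝓞 L)) :=
  S.biUnion fun v => (fib_finite (L := L) v).toFinset

theorem coe_aboveF (S : Finset (HeightOneSpectrum (𝓞 K))) :
    ((aboveF (L := L) S : Finset (HeightOneSpectrum (𝓞 L))) : Set (HeightOneSpectrum (𝓞 L))) =
      above (L := L) (S : Set (HeightOneSpectrum (𝓞 K))) := by
  classical
  ext w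
  simp only [aboveF, Finset.coe_biUnion, Set.mem_iUnion, Set.Finite.coe_toFinset, mem_above,
    Finset.mem_coe]
  constructor
  · rintro ⟨v, hv, hw⟩
    have : w.under (𝓞 K) = v := hw
    rw [this]; exact hv
  · intro h
    exact ⟨_, h, rfl⟩

theorem card_aboveF (S : Finset (HeightOneSpectrum (𝓞 K))) :
    (aboveF (L := L) S).card = ∑ v ∈ S, (fib (L := L) v).ncard := by
  classical
  rw [aboveF, Finset.card_biUnion]
  · apply Finset.sum_congr rfl
    intro v _
    rw [Set.ncard_eq_toFinset_card _ (fib_finite v)]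
  · intro v _ v' _ hvv'
    rw [Function.onFun, Finset.disjoint_left]
    intro w hw hw'
    rw [Set.Finite.mem_toFinset] at hw hw'
    have h1 : w.under (𝓞 K) = v := hw
    have h2 : w.under (𝓞 K) = v' := hw'
    exact hvv' (h1.symm.trans h2)

open Classical in
/-- **count**: `|S_L| = a + (|S| - a) p` with `a` the number of `v ∈ S` with a single prime
above. -/
theorem card_aboveF_eq [IsGalois K L] {p : ℕ} (hp : p.Prime) (hdeg : finrank K L = p)
    (S : Finset (HeightOneSpectrum (𝓞 K))) :
    (aboveF (L := L) S).card =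
      (S.filter fun v => (fib (L := L) v).ncard = 1).card +
        (S.filter fun v => ¬ (fib (L := L) v).ncard = 1).card * p := by
  rw [card_aboveF, ← Finset.sum_filter_add_sum_filter_not S
    (fun v => (fib (L := L) v).ncard = 1)]
  congr 1
  · rw [Finset.card_eq_sum_ones]
    apply Finset.sum_congr rfl
    intro v hv
    exact (Finset.mem_filter.mp hv).2
  · rw [Finset.card_eq_sum_ones, Finset.sum_mul]
    apply Finset.sum_congr rfl
    intro v hv
    rw [one_mul]
    rcases ncard_fib_eq_one_or (L := L) hp hdeg v with h | h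
    · exact absurd h (Finset.mem_filter.mp hv).2
    · exact h

end Fermat.Agent.GC.SUnitHQ
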