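/-
GATE-C / C4 (G2-u): the Herbrand quotient of the `S`-units for a cyclic extension `L/K` of prime
degree `p` (any ramification), `K` totally complex:

  `|H^1(G, E_S)| * p ^ a = p * |Ĥ^0(G, E_S)|`,   `a = #{v ∈ S | exactly one prime of L above v}`.

Built on T14's abstract Herbrand computation `herbrand_of_rank_subgroup`.
-/
import Fermat.Agent.GC.SUnitHQ.Count
import Fermat.Agent.S14.UnitsHerbrand

set_option autoImplicit false

open NumberField IsDedekindDomain Module

namespace Fermat.Agent.GC.SUnitHQ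

set_option linter.unusedSectionVars false

open Fermat.Agent.S14 Fermat.Agent.S14.UH

variable {K L : Type*} [Field K] [NumberField K] [Field L] [NumberField L] [Algebra K L]

/-- the `S`-units of `L` (`S` a set of primes of `K`), written additively -/
abbrev SUL (K L : Type*) [Field K] [NumberField K] [Field L] [NumberField L] [Algebra K L]
    (S : Set (HeightOneSpectrum (𝓞 K))) : Type _ :=
  Additive ((above (L := L) S).unit L)

/-- the additive endomorphism of the `S`-units of `L` induced by `σ` -/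
noncomputable def sAddAct (S : Set (HeightOneSpectrum (𝓞 K))) (σ : L ≃ₐ[K] L) :
    AddMonoid.End (SUL K L S) :=
  MonoidHom.toAdditive (sAct S σ)

theorem sAddAct_apply (S : Set (HeightOneSpectrum (𝓞 K))) (σ : L ≃ₐ[K] L) (x : SUL K L S) :
    sAddAct S σ x = Additive.ofMul (sAct S σ x.toMul) := rfl

theorem sAddAct_pow (S : Set (HeightOneSpectrum (𝓞 K))) (σ : L ≃ₐ[K] L) (k : ℕ) :
    sAddAct S σ ^ k = sAddAct S (σ ^ k) := by
  induction k with
  | zero =>
    ext x
    rw [pow_zero, pow_zero, sAddAct_apply, sAct_one]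
    rfl
  | succ k ih =>
    rw [pow_succ, pow_succ, ih]
    ext x
    rw [AddMonoid.End.coe_mul, Function.comp_apply, sAddAct_apply, sAddAct_apply, sAddAct_apply,
      sAct_mul]
    rfl

theorem sAddAct_sub_one_apply (S : Set (HeightOneSpectrum (𝓞 K))) (σ : L ≃ₐ[K] L)
    (x : SUL K L S) :
    (sAddAct S σ - 1 : AddMonoid.End (SUL K L S)) x =
      Additive.ofMul (sAct S σ x.toMul / x.toMul) := rfl

/-- the kernel of `σ - 1` on the `S`-units of `L` is the image of the `S`-units of `K` -/
theorem ker_sAddAct_sub_one [IsGalois K L] {p : ℕ} (hp : p.Prime) (hdeg : finrank K L = p)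
    (S : Set (HeightOneSpectrum (𝓞 K))) (σ : L ≃ₐ[K] L) (hσ : σ ≠ 1) :
    AddMonoidHom.ker (sAddAct S σ - 1 : AddMonoid.End (SUL K L S)) =
      AddMonoidHom.range (MonoidHom.toAdditive (baseSUnits (L := L) S)) := by
  have : FiniteDimensional K L := Module.finite_of_finrank_pos (by rw [hdeg]; exact hp.pos)
  have hcard : Nat.card (L ≃ₐ[K] L) = p := by rw [IsGalois.card_aut_eq_finrank, hdeg]
  have : Fact p.Prime := ⟨hp⟩
  have htop : Subgroup.zpowers σ = ⊤ := zpowers_eq_top_of_prime_card hcard hσ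
  ext x
  constructor
  · intro hx
    have hx' : sAct S σ x.toMul / x.toMul = 1 := (AddMonoidHom.mem_ker).mp hx
    have hfix : sAct S σ x.toMul = x.toMul := div_eq_one.mp hx'
    -- the stabiliser of `x` contains `σ`, hence everything
    let H : Subgroup (L ≃ₐ[K] L) :=
      { carrier := {τ | sAct S τ x.toMul = x.toMul}
        mul_mem' := fun {a b} ha hb => by
          change sAct S (a * b) x.toMul = x.toMul
          rw [sAct_mul, MonoidHom.comp_apply, (hb : sAct S b x.toMul = x.toMul),
            (ha : sAct S a x.toMul = x.toMul)]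
        one_mem' := by
          change sAct S 1 x.toMul = x.toMul
          rw [sAct_one]; rfl
        inv_mem' := fun {a} ha => by
          change sAct S a⁻¹ x.toMul = x.toMul
          have h1 : sAct S a⁻¹ (sAct S a x.toMul) = x.toMul := by
            rw [← MonoidHom.comp_apply, ← sAct_mul, inv_mul_cancel, sAct_one]; rfl
          rwa [(ha : sAct S a x.toMul = x.toMul)] at h1 }
    have hσH : σ ∈ H := hfix
    have hle : Subgroup.zpowers σ ≤ H := (Subgroup.zpowers_le).mpr hσH
    rw [htop] at hle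
    obtain ⟨y, hy⟩ := mem_range_baseSUnits_of_fixed S x.toMul
      (fun τ => hle (Subgroup.mem_top τ))
    exact ⟨Additive.ofMul y, congrArg Additive.ofMul hy⟩
  · rintro ⟨y, rfl⟩
    change Additive.ofMul (sAct S σ (baseSUnits S y.toMul) / baseSUnits S y.toMul) = 0
    rw [sAct_baseSUnits, div_self']
    rfl

/-- rank of the fixed part -/
theorem finrank_ker_sAddAct_sub_one [IsGalois K L] {p : ℕ} (hp : p.Prime)
    (hdeg : finrank K L = p) (S : Finset (HeightOneSpectrum (𝓞 K))) (σ : L ≃ₐ[K] L)
    (hσ : σ ≠ 1) :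
    finrank ℤ (AddMonoidHom.ker
      (sAddAct (S : Set (HeightOneSpectrum (𝓞 K))) σ - 1 :
        AddMonoid.End (SUL K L (S : Set (HeightOneSpectrum (𝓞 K)))))) =
      Units.rank K + S.card := by
  rw [ker_sAddAct_sub_one hp hdeg _ σ hσ, ← finrank_unit_finset S]
  have hinj : Function.Injective (MonoidHom.toAdditive
      (baseSUnits (L := L) (S : Set (HeightOneSpectrum (𝓞 K))))) :=
    fun x y h => baseSUnits_injective _ h
  exact (AddMonoidHom.ofInjective hinj).symm.toIntLinearEquiv.finrank_eq

/-- finite generation and rank of the `S`-units of `L` -/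
theorem finite_finrank_SUL (S : Finset (HeightOneSpectrum (𝓞 K))) :
    Module.Finite ℤ (SUL K L (S : Set (HeightOneSpectrum (𝓞 K)))) ∧
      finrank ℤ (SUL K L (S : Set (HeightOneSpectrum (𝓞 K)))) =
        Units.rank L + (aboveF (L := L) S).card := by
  have h := finite_finrank_unit_finset (K := L) (aboveF (L := L) S)
  rw [coe_aboveF] at h
  exact h

open Classical in
/-- **(HQ-S), additive subgroup form.**  `L/K` Galois of prime degree `p`, `K` totally complex,
`σ ≠ 1`, `S` a finite set of primes of `K`, `U` a `σ`-stable subgroup of the `S`-units `E_S` of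
`L` with `m • E_S ⊆ U`, `D = σ - 1`, `N = ∑_{i<p} σ^i`.  Then
`[U ∩ ker N : D U] * p ^ a = p * [U ∩ ker D : N U]`, where `a` is the number of `v ∈ S` with
exactly one prime of `L` above `v`. -/
theorem sUnits_herbrand_add [IsGalois K L] {p : ℕ} (hp : p.Prime) (hdeg : finrank K L = p)
    (hK : IsTotallyComplex K) (σ : L ≃ₐ[K] L) (hσ : σ ≠ 1)
    (S : Finset (HeightOneSpectrum (𝓞 K)))
    (U : AddSubgroup (SUL K L (S : Set (HeightOneSpectrum (𝓞 K)))))
    (hU : ∀ x ∈ U, sAddAct (S : Set (HeightOneSpectrum (𝓞 K))) σ x ∈ U)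
    (m : ℕ) (hm : m ≠ 0) (hmU : ∀ x : SUL K L (S : Set (HeightOneSpectrum (𝓞 K))), m • x ∈ U) :
    let τ : AddMonoid.End (SUL K L (S : Set (HeightOneSpectrum (𝓞 K)))) :=
      sAddAct (S : Set (HeightOneSpectrum (𝓞 K))) σ
    let a : ℕ := (S.filter fun v => (fib (L := L) v).ncard = 1).card
    (U.map (τ - 1)).relIndex (U ⊓ AddMonoidHom.ker (∑ i ∈ Finset.range p, τ ^ i)) ≠ 0 ∧
    (U.map (∑ i ∈ Finset.range p, τ ^ i)).relIndex (U ⊓ AddMonoidHom.ker (τ - 1)) ≠ 0 ∧
    (U.map (τ - 1)).relIndex (U ⊓ AddMonoidHom.ker (∑ i ∈ Finset.range p, τ ^ i)) * p ^ a =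
      p * (U.map (∑ i ∈ Finset.range p, τ ^ i)).relIndex (U ⊓ AddMonoidHom.ker (τ - 1)) := by
  intro τ a
  have : FiniteDimensional K L := Module.finite_of_finrank_pos (by rw [hdeg]; exact hp.pos)
  have hcard : Nat.card (L ≃ₐ[K] L) = p := by rw [IsGalois.card_aut_eq_finrank, hdeg]
  have hσp : σ ^ p = 1 := by
    rw [← hcard]; exact pow_card_eq_one'
  have hτp : τ ^ p = 1 := by
    change sAddAct _ σ ^ p = 1
    rw [sAddAct_pow, hσp]
    ext x
    rw [sAddAct_apply, sAct_one]
    rfl
  have hLc := isTotallyComplex_of_algebra K L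
  have hcK := rank_add_one_of_isTotallyComplex K
  have hcL := rank_add_one_of_isTotallyComplex L
  have hc := nrComplexPlaces_of_finrank (K := K) (L := L) hdeg
  set c := InfinitePlace.nrComplexPlaces K with hcdef
  obtain ⟨hfin, hrk⟩ := finite_finrank_SUL (L := L) S
  have hcount := card_aboveF_eq (L := L) hp hdeg S
  set b : ℕ := (S.filter fun v => ¬ (fib (L := L) v).ncard = 1).card with hb
  have hsab : S.card = a + b := by
    rw [← Finset.card_filter_add_card_filter_not (s := S)
      (fun v => (fib (L := L) v).ncard = 1)]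
  obtain ⟨h1, h2, h3⟩ := herbrand_of_rank_subgroup hp τ hτp U hU m hm hmU
    (Units.rank K + S.card) (Units.rank L + (aboveF (L := L) S).card) hrk
    (finrank_ker_sAddAct_sub_one hp hdeg S σ hσ)
  refine ⟨h1, h2, ?_⟩
  obtain ⟨q, rfl⟩ : ∃ q, p = q + 1 := ⟨p - 1, by have := hp.two_le; omega⟩
  have hq : 0 < q := by have := hp.two_le; omega
  have hn : Units.rank L + (aboveF (L := L) S).card =
      Units.rank K + S.card + q * (c + b) := by
    rw [hcount, hsab]
    have e1 : Units.rank L + 1 = c * (q + 1) := by rw [hcL, hc]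
    have e2 : Units.rank K + 1 = c := hcK
    have e3 : c * (q + 1) = c * q + c := by ring
    have e4 : b * (q + 1) = b * q + b := by ring
    have e5 : q * (c + b) = c * q + b * q := by ring
    omega
  have hdiv : (Units.rank L + (aboveF (L := L) S).card - (Units.rank K + S.card)) /
      (q + 1 - 1) = c + b := by
    rw [hn, Nat.add_sub_cancel_left, Nat.add_sub_cancel, Nat.mul_div_cancel_left _ hq]
  rw [hdiv, hsab] at h3
  -- `X * p^(rK + (a+b)) = Y * p^(c+b)`, `c = rK + 1`
  have e2 : c = Units.rank K + 1 := hcK.symm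
  rw [e2] at h3
  have key : ∀ X Y : ℕ, X * (q + 1) ^ (Units.rank K + (a + b)) =
      Y * (q + 1) ^ (Units.rank K + 1 + b) → X * (q + 1) ^ a = (q + 1) * Y := by
    intro X Y h
    have hpa : 0 < (q + 1) ^ (Units.rank K + b) := pow_pos (Nat.succ_pos q) _
    refine Nat.eq_of_mul_eq_mul_right hpa ?_
    calc X * (q + 1) ^ a * (q + 1) ^ (Units.rank K + b)
        = X * (q + 1) ^ (Units.rank K + (a + b)) := by ring
      _ = Y * (q + 1) ^ (Units.rank K + 1 + b) := h
      _ = (q + 1) * Y * (q + 1) ^ (Units.rank K + b) := by ring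
  exact key _ _ h3

end Fermat.Agent.GC.SUnitHQ
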