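/-
GATE-C / C4 (G2-u): multiplicative form of the `S`-unit Herbrand quotient, for a `σ`-stable
subgroup `U` of finite index of the `S`-units `E_S` of `L` (in particular `U = E_S`), with
`sDlt σ x = σ x / x` and `sNrm σ p x = ∏_{i<p} σ^i x` (the norm).
-/
import Fermat.Agent.GC.SUnitHQ.HQ

set_option autoImplicit false

open NumberField IsDedekindDomain Module

namespace Fermat.Agent.GC.SUnitHQ

set_option linter.unusedSectionVars false

variable {K L : Type*} [Field K] [NumberField K] [Field L] [NumberField L] [Algebra K L]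

/-- `x ↦ σ x / x` on the `S`-units of `L` -/
noncomputable def sDlt (S : Set (HeightOneSpectrum (𝓞 K))) (σ : L ≃ₐ[K] L) :
    (above (L := L) S).unit L →* (above (L := L) S).unit L :=
  sAct S σ / MonoidHom.id _

/-- `x ↦ ∏_{i<p} σ^i x` on the `S`-units of `L` -/
noncomputable def sNrm (S : Set (HeightOneSpectrum (𝓞 K))) (σ : L ≃ₐ[K] L) (p : ℕ) :
    (above (L := L) S).unit L →* (above (L := L) S).unit L :=
  ∏ i ∈ Finset.range p, sAct S (σ ^ i)

theorem sDlt_apply (S : Set (HeightOneSpectrum (𝓞 K))) (σ : L ≃ₐ[K] L)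
    (x : (above (L := L) S).unit L) : sDlt S σ x = sAct S σ x / x := rfl

theorem sNrm_apply (S : Set (HeightOneSpectrum (𝓞 K))) (σ : L ≃ₐ[K] L) (p : ℕ)
    (x : (above (L := L) S).unit L) : sNrm S σ p x = ∏ i ∈ Finset.range p, sAct S (σ ^ i) x := by
  simp [sNrm]

theorem coe_sNrm (S : Set (HeightOneSpectrum (𝓞 K))) (σ : L ≃ₐ[K] L) (p : ℕ)
    (x : (above (L := L) S).unit L) :
    (((sNrm S σ p x : (above (L := L) S).unit L) : Lˣ) : L) =
      ∏ i ∈ Finset.range p, (σ ^ i) ((x : Lˣ) : L) := by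
  rw [sNrm_apply]
  induction p with
  | zero => simp
  | succ k ih =>
    rw [Finset.prod_range_succ, Finset.prod_range_succ, Subgroup.coe_mul, Units.val_mul, ih,
      coe_sAct]

/-- on `S`-units, `sNrm` is the field norm (for `σ` a generator of the Galois group of prime
order) -/
theorem coe_sNrm_eq_norm [IsGalois K L] {p : ℕ} (hp : p.Prime) (hdeg : finrank K L = p)
    (S : Set (HeightOneSpectrum (𝓞 K))) (σ : L ≃ₐ[K] L) (hσ : σ ≠ 1)
    (x : (above (L := L) S).unit L) :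
    (((sNrm S σ p x : (above (L := L) S).unit L) : Lˣ) : L) =
      algebraMap K L (Algebra.norm K ((x : Lˣ) : L)) := by
  rw [coe_sNrm]
  exact Fermat.Agent.S14.UH.prod_pow_eq_norm hp hdeg σ hσ _

theorem sAddAct_sum_apply (S : Set (HeightOneSpectrum (𝓞 K))) (σ : L ≃ₐ[K] L) (p : ℕ)
    (x : SUL K L S) :
    (∑ i ∈ Finset.range p, sAddAct S σ ^ i : AddMonoid.End (SUL K L S)) x =
      Additive.ofMul (sNrm S σ p x.toMul) := by
  induction p with
  | zero => simp [sNrm]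
  | succ k ih =>
    rw [Finset.sum_range_succ]
    change (∑ i ∈ Finset.range k, sAddAct S σ ^ i : AddMonoid.End (SUL K L S)) x +
      (sAddAct S σ ^ k) x = _
    rw [ih, sAddAct_pow, sAddAct_apply, sNrm_apply, sNrm_apply, Finset.prod_range_succ]
    rfl

theorem toAddSubgroup_map_sDlt (S : Set (HeightOneSpectrum (𝓞 K))) (σ : L ≃ₐ[K] L)
    (U : Subgroup ((above (L := L) S).unit L)) :
    (Subgroup.toAddSubgroup U).map (sAddAct S σ - 1 : AddMonoid.End (SUL K L S)) =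
      Subgroup.toAddSubgroup (U.map (sDlt S σ)) := by
  ext x
  constructor
  · rintro ⟨y, hy, rfl⟩
    exact ⟨y.toMul, hy, rfl⟩
  · rintro ⟨y, hy, hyx⟩
    exact ⟨Additive.ofMul y, hy, congrArg Additive.ofMul hyx⟩

theorem toAddSubgroup_map_sNrm (S : Set (HeightOneSpectrum (𝓞 K))) (σ : L ≃ₐ[K] L) (p : ℕ)
    (U : Subgroup ((above (L := L) S).unit L)) :
    (Subgroup.toAddSubgroup U).map
        (∑ i ∈ Finset.range p, sAddAct S σ ^ i : AddMonoid.End (SUL K L S)) =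
      Subgroup.toAddSubgroup (U.map (sNrm S σ p)) := by
  ext x
  constructor
  · rintro ⟨y, hy, rfl⟩
    exact ⟨y.toMul, hy, (sAddAct_sum_apply S σ p y).symm⟩
  · rintro ⟨y, hy, hyx⟩
    exact ⟨Additive.ofMul y, hy, (sAddAct_sum_apply S σ p _).trans (congrArg Additive.ofMul hyx)⟩

theorem toAddSubgroup_inf_ker_sDlt (S : Set (HeightOneSpectrum (𝓞 K))) (σ : L ≃ₐ[K] L)
    (U : Subgroup ((above (L := L) S).unit L)) :
    Subgroup.toAddSubgroup U ⊓
        AddMonoidHom.ker (sAddAct S σ - 1 : AddMonoid.End (SUL K L S)) =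
      Subgroup.toAddSubgroup (U ⊓ (sDlt S σ).ker) := by
  ext x
  constructor
  · rintro ⟨hxU, hx⟩
    exact ⟨hxU, (hx : Additive.ofMul (sDlt S σ x.toMul) = 0)⟩
  · rintro ⟨hxU, hx⟩
    exact ⟨hxU, (hx : sDlt S σ x.toMul = 1)⟩

theorem toAddSubgroup_inf_ker_sNrm (S : Set (HeightOneSpectrum (𝓞 K))) (σ : L ≃ₐ[K] L) (p : ℕ)
    (U : Subgroup ((above (L := L) S).unit L)) :
    Subgroup.toAddSubgroup U ⊓ AddMonoidHom.ker
        (∑ i ∈ Finset.range p, sAddAct S σ ^ i : AddMonoid.End (SUL K L S)) =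
      Subgroup.toAddSubgroup (U ⊓ (sNrm S σ p).ker) := by
  ext x
  constructor
  · rintro ⟨hxU, hx⟩
    refine ⟨hxU, ?_⟩
    have hx' : (∑ i ∈ Finset.range p, sAddAct S σ ^ i : AddMonoid.End (SUL K L S)) x = 0 := hx
    rw [sAddAct_sum_apply] at hx'
    exact hx'
  · rintro ⟨hxU, hx⟩
    refine ⟨hxU, ?_⟩
    show (∑ i ∈ Finset.range p, sAddAct S σ ^ i : AddMonoid.End (SUL K L S)) x = 0
    rw [sAddAct_sum_apply]
    exact (hx : sNrm S σ p x.toMul = 1)

/-- the kernel of `x ↦ σ x / x` on the `S`-units of `L` is the image of the `S`-units of `K` -/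
theorem ker_sDlt_eq_range [IsGalois K L] {p : ℕ} (hp : p.Prime) (hdeg : finrank K L = p)
    (S : Set (HeightOneSpectrum (𝓞 K))) (σ : L ≃ₐ[K] L) (hσ : σ ≠ 1) :
    (sDlt S σ).ker = (baseSUnits (L := L) S).range := by
  have h := ker_sAddAct_sub_one hp hdeg S σ hσ
  ext x
  have h1 : x ∈ (sDlt S σ).ker ↔ Additive.ofMul x ∈
      AddMonoidHom.ker (sAddAct S σ - 1 : AddMonoid.End (SUL K L S)) := Iff.rfl
  rw [h1, h]
  constructor
  · rintro ⟨y, hy⟩
    exact ⟨y.toMul, hy⟩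
  · rintro ⟨y, hy⟩
    exact ⟨Additive.ofMul y, hy⟩

open Classical in
/-- `sUnits_herbrand_add` without `let`s -/
theorem sUnits_herbrand_add' [IsGalois K L] {p : ℕ} (hp : p.Prime) (hdeg : finrank K L = p)
    (hK : IsTotallyComplex K) (σ : L ≃ₐ[K] L) (hσ : σ ≠ 1)
    (S : Finset (HeightOneSpectrum (𝓞 K)))
    (U : AddSubgroup (SUL K L (S : Set (HeightOneSpectrum (𝓞 K)))))
    (hU : ∀ x ∈ U, sAddAct (S : Set (HeightOneSpectrum (𝓞 K))) σ x ∈ U)
    (m : ℕ) (hm : m ≠ 0) (hmU : ∀ x : SUL K L (S : Set (HeightOneSpectrum (𝓞 K))), m • x ∈ U) :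
    (U.map (sAddAct (S : Set (HeightOneSpectrum (𝓞 K))) σ - 1 :
        AddMonoid.End (SUL K L (S : Set (HeightOneSpectrum (𝓞 K)))))).relIndex
      (U ⊓ AddMonoidHom.ker (∑ i ∈ Finset.range p,
        sAddAct (S : Set (HeightOneSpectrum (𝓞 K))) σ ^ i :
          AddMonoid.End (SUL K L (S : Set (HeightOneSpectrum (𝓞 K)))))) ≠ 0 ∧
    (U.map (∑ i ∈ Finset.range p, sAddAct (S : Set (HeightOneSpectrum (𝓞 K))) σ ^ i :
        AddMonoid.End (SUL K L (S : Set (HeightOneSpectrum (𝓞 K)))))).relIndex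
      (U ⊓ AddMonoidHom.ker (sAddAct (S : Set (HeightOneSpectrum (𝓞 K))) σ - 1 :
        AddMonoid.End (SUL K L (S : Set (HeightOneSpectrum (𝓞 K)))))) ≠ 0 ∧
    (U.map (sAddAct (S : Set (HeightOneSpectrum (𝓞 K))) σ - 1 :
        AddMonoid.End (SUL K L (S : Set (HeightOneSpectrum (𝓞 K)))))).relIndex
      (U ⊓ AddMonoidHom.ker (∑ i ∈ Finset.range p,
        sAddAct (S : Set (HeightOneSpectrum (𝓞 K))) σ ^ i :
          AddMonoid.End (SUL K L (S : Set (HeightOneSpectrum (𝓞 K)))))) *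
        p ^ (S.filter fun v => (fib (L := L) v).ncard = 1).card =
      p * (U.map (∑ i ∈ Finset.range p, sAddAct (S : Set (HeightOneSpectrum (𝓞 K))) σ ^ i :
        AddMonoid.End (SUL K L (S : Set (HeightOneSpectrum (𝓞 K)))))).relIndex
      (U ⊓ AddMonoidHom.ker (sAddAct (S : Set (HeightOneSpectrum (𝓞 K))) σ - 1 :
        AddMonoid.End (SUL K L (S : Set (HeightOneSpectrum (𝓞 K)))))) :=
  sUnits_herbrand_add hp hdeg hK σ hσ S U hU m hm hmU

open Classical in
/-- **(HQ-S), multiplicative form.**  `L/K` Galois of prime degree `p`, `K` totally complex,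
`σ ≠ 1`, `S` a finite set of primes of `K`, `U` a `σ`-stable subgroup of finite index of the
`S`-units `E_S` of `L`.  Then `[U ∩ ker N : (σ-1) U] * p ^ a = p * [U ∩ E_S^σ : N U]`, `a` the
number of `v ∈ S` with exactly one prime of `L` above `v`.  No hypothesis on ramification. -/
theorem sUnits_herbrand [IsGalois K L] {p : ℕ} (hp : p.Prime) (hdeg : finrank K L = p)
    (hK : IsTotallyComplex K) (σ : L ≃ₐ[K] L) (hσ : σ ≠ 1)
    (S : Finset (HeightOneSpectrum (𝓞 K)))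
    (U : Subgroup ((above (L := L) (S : Set (HeightOneSpectrum (𝓞 K)))).unit L))
    (hU : U.index ≠ 0) (hstab : ∀ u ∈ U, sAct _ σ u ∈ U) :
    let a : ℕ := (S.filter fun v => (fib (L := L) v).ncard = 1).card
    (U.map (sDlt _ σ)).relIndex (U ⊓ (sNrm _ σ p).ker) ≠ 0 ∧
    (U.map (sNrm _ σ p)).relIndex (U ⊓ (sDlt _ σ).ker) ≠ 0 ∧
    (U.map (sDlt _ σ)).relIndex (U ⊓ (sNrm _ σ p).ker) * p ^ a =
      p * (U.map (sNrm _ σ p)).relIndex (U ⊓ (sDlt _ σ).ker) := by
  intro a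
  have hmS : ∀ x : SUL K L (S : Set (HeightOneSpectrum (𝓞 K))),
      U.index • x ∈ Subgroup.toAddSubgroup U := fun x => U.pow_index_mem x.toMul
  have := sUnits_herbrand_add' hp hdeg hK σ hσ S (Subgroup.toAddSubgroup U)
    (fun x hx => hstab x.toMul hx) U.index hU hmS
  rw [toAddSubgroup_map_sDlt, toAddSubgroup_map_sNrm, toAddSubgroup_inf_ker_sDlt,
    toAddSubgroup_inf_ker_sNrm, Subgroup.relIndex_toAddSubgroup,
    Subgroup.relIndex_toAddSubgroup] at this
  exact this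

open Classical in
/-- **(HQ-S) for the full group of `S`-units**:
`|H^1(G, E_S)| * p ^ a = p * |Ĥ^0(G, E_S)|`. -/
theorem sUnits_herbrand_top [IsGalois K L] {p : ℕ} (hp : p.Prime) (hdeg : finrank K L = p)
    (hK : IsTotallyComplex K) (σ : L ≃ₐ[K] L) (hσ : σ ≠ 1)
    (S : Finset (HeightOneSpectrum (𝓞 K))) :
    let a : ℕ := (S.filter fun v => (fib (L := L) v).ncard = 1).card
    (sDlt (L := L) (S : Set (HeightOneSpectrum (𝓞 K))) σ).range.relIndex
      (sNrm (L := L) (S : Set (HeightOneSpectrum (𝓞 K))) σ p).ker ≠ 0 ∧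
    (sNrm (L := L) (S : Set (HeightOneSpectrum (𝓞 K))) σ p).range.relIndex
      (sDlt (L := L) (S : Set (HeightOneSpectrum (𝓞 K))) σ).ker ≠ 0 ∧
    (sDlt (L := L) (S : Set (HeightOneSpectrum (𝓞 K))) σ).range.relIndex
      (sNrm (L := L) (S : Set (HeightOneSpectrum (𝓞 K))) σ p).ker * p ^ a =
      p * (sNrm (L := L) (S : Set (HeightOneSpectrum (𝓞 K))) σ p).range.relIndex
        (sDlt (L := L) (S : Set (HeightOneSpectrum (𝓞 K))) σ).ker := by
  intro a
  have h := sUnits_herbrand hp hdeg hK σ hσ S ⊤ (by simp) (fun _ _ => Subgroup.mem_top _)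
  dsimp only at h
  simp only [← MonoidHom.range_eq_map, top_inf_eq] at h
  exact h

end Fermat.Agent.GC.SUnitHQ
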