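/-
GATE-C / AD6-E (helper68), part (P1): the `S`-unit Herbrand quotient in AMBIENT form, i.e. as a
statement about subgroups of `Additive Lˣ` (independent of how the `S`-units are packaged as a
type).
-/
import Fermat.Agent.GC.SUnitHQ.HQMul

set_option autoImplicit false

open NumberField IsDedekindDomain Module

namespace Fermat.Agent.GC.SUnitHQ

set_option linter.unusedSectionVars false

variable {K L : Type*} [Field K] [NumberField K] [Field L] [NumberField L] [Algebra K L]

/-- the additive endomorphism of `Additive Lˣ` induced by a ring automorphism -/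
noncomputable def ambAct (σ : L ≃+* L) : AddMonoid.End (Additive Lˣ) :=
  MonoidHom.toAdditive (Units.map (σ : L →* L))

theorem ambAct_apply (σ : L ≃+* L) (x : Additive Lˣ) :
    ambAct σ x = Additive.ofMul (Units.map (σ : L →* L) x.toMul) := rfl

/-- the inclusion of the `S`-units into `Additive Lˣ` -/
noncomputable def sInc (S : Set (HeightOneSpectrum (𝓞 K))) : SUL K L S →+ Additive Lˣ :=
  MonoidHom.toAdditive ((above (L := L) S).unit L).subtype

theorem sInc_injective (S : Set (HeightOneSpectrum (𝓞 K))) : Function.Injective (sInc (L := L) S) :=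
  fun _ _ h => Subtype.ext h

theorem range_sInc (S : Set (HeightOneSpectrum (𝓞 K))) :
    (sInc (L := L) S).range = Subgroup.toAddSubgroup ((above (L := L) S).unit L) := by
  ext x
  constructor
  · rintro ⟨y, rfl⟩
    exact y.toMul.2
  · intro hx
    exact ⟨Additive.ofMul ⟨x.toMul, hx⟩, rfl⟩

theorem sInc_sAddAct (S : Set (HeightOneSpectrum (𝓞 K))) (σ : L ≃ₐ[K] L) (x : SUL K L S) :
    sInc S (sAddAct S σ x) = ambAct (σ : L ≃+* L) (sInc S x) := rfl

theorem sInc_sub_one (S : Set (HeightOneSpectrum (𝓞 K))) (σ : L ≃ₐ[K] L) (x : SUL K L S) :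
    sInc S ((sAddAct S σ - 1 : AddMonoid.End (SUL K L S)) x) =
      (ambAct (σ : L ≃+* L) - 1 : AddMonoid.End (Additive Lˣ)) (sInc S x) := rfl

theorem sInc_sum (S : Set (HeightOneSpectrum (𝓞 K))) (σ : L ≃ₐ[K] L) (p : ℕ) (x : SUL K L S) :
    sInc S ((∑ i ∈ Finset.range p, sAddAct S σ ^ i : AddMonoid.End (SUL K L S)) x) =
      (∑ i ∈ Finset.range p, ambAct (σ : L ≃+* L) ^ i : AddMonoid.End (Additive Lˣ))
        (sInc S x) := by
  have hpow : ∀ (i : ℕ) (y : SUL K L S),
      sInc S ((sAddAct S σ ^ i) y) = (ambAct (σ : L ≃+* L) ^ i) (sInc S y) := by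
    intro i
    induction i with
    | zero => intro y; rfl
    | succ i ih =>
      intro y
      rw [pow_succ, pow_succ, AddMonoid.End.coe_mul, AddMonoid.End.coe_mul, Function.comp_apply,
        Function.comp_apply, ih, sInc_sAddAct]
  induction p with
  | zero => simp
  | succ k ih =>
    rw [Finset.sum_range_succ, Finset.sum_range_succ]
    change sInc S ((∑ i ∈ Finset.range k, sAddAct S σ ^ i : AddMonoid.End (SUL K L S)) x +
      (sAddAct S σ ^ k) x) = (∑ i ∈ Finset.range k, ambAct (σ : L ≃+* L) ^ i :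
        AddMonoid.End (Additive Lˣ)) (sInc S x) + (ambAct (σ : L ≃+* L) ^ k) (sInc S x)
    rw [map_add, ih, hpow]

/-- transport of `map`/`ker` data along an injective homomorphism intertwining two
endomorphisms -/
theorem map_map_eq_of_intertwine {A B : Type*} [AddCommGroup A] [AddCommGroup B] (ι : A →+ B)
    (f : AddMonoid.End A) (g : AddMonoid.End B) (h : ∀ x, ι (f x) = g (ι x)) :
    (AddMonoidHom.range f).map ι = (ι.range).map g := by
  ext y
  constructor
  · rintro ⟨_, ⟨x, rfl⟩, rfl⟩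
    exact ⟨ι x, ⟨x, rfl⟩, (h x).symm⟩
  · rintro ⟨_, ⟨x, rfl⟩, rfl⟩
    exact ⟨f x, ⟨x, rfl⟩, h x⟩

theorem map_ker_eq_of_intertwine {A B : Type*} [AddCommGroup A] [AddCommGroup B] (ι : A →+ B)
    (hι : Function.Injective ι)
    (f : AddMonoid.End A) (g : AddMonoid.End B) (h : ∀ x, ι (f x) = g (ι x)) :
    (AddMonoidHom.ker f).map ι = ι.range ⊓ AddMonoidHom.ker g := by
  ext y
  constructor
  · rintro ⟨x, hx, rfl⟩
    refine ⟨⟨x, rfl⟩, ?_⟩
    have hx' : f x = 0 := hx
    show g (ι x) = 0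
    rw [← h, hx', map_zero]
  · rintro ⟨⟨x, rfl⟩, hy⟩
    refine ⟨x, ?_, rfl⟩
    show f x = 0
    apply hι
    rw [h, map_zero]
    exact hy

/-- relIndex transport along an injective homomorphism intertwining two pairs of maps -/
theorem relIndex_range_ker_transport {A B : Type*} [AddCommGroup A] [AddCommGroup B] (ι : A →+ B)
    (hι : Function.Injective ι) (f f' : A →+ A) (g g' : B →+ B)
    (h : ∀ x, ι (f x) = g (ι x)) (h' : ∀ x, ι (f' x) = g' (ι x)) :
    ((ι.range).map g).relIndex (ι.range ⊓ g'.ker) = (f.range).relIndex f'.ker := by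
  have e1 : (f.range).map ι = (ι.range).map g := map_map_eq_of_intertwine ι f g h
  have e2 : (f'.ker).map ι = ι.range ⊓ g'.ker := map_ker_eq_of_intertwine ι hι f' g' h'
  rw [← e1, ← e2, AddSubgroup.relIndex_map_map_of_injective _ _ hι]

/-- variant of `relIndex_range_ker_transport` with `map f ⊤` instead of `range f` -/
theorem relIndex_map_top_ker_transport {A B : Type*} [AddCommGroup A] [AddCommGroup B]
    (ι : A →+ B) (hι : Function.Injective ι) (f f' : A →+ A) (g g' : B →+ B)
    (h : ∀ x, ι (f x) = g (ι x)) (h' : ∀ x, ι (f' x) = g' (ι x)) :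
    ((ι.range).map g).relIndex (ι.range ⊓ g'.ker) =
      ((⊤ : AddSubgroup A).map f).relIndex f'.ker := by
  rw [relIndex_range_ker_transport ι hι f f' g g' h h', AddMonoidHom.range_eq_map]

theorem ambAct_one : ambAct (RingEquiv.refl L) = 1 := by
  ext x
  rfl

theorem ambAct_mul (σ τ : L ≃+* L) : ambAct (τ.trans σ) = ambAct σ * ambAct τ := by
  ext x
  rfl

theorem ambAct_algEquiv_pow (σ : L ≃ₐ[K] L) (i : ℕ) :
    ambAct ((σ ^ i : L ≃ₐ[K] L) : L ≃+* L) = ambAct (σ : L ≃+* L) ^ i := by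
  induction i with
  | zero => ext x; rfl
  | succ i ih =>
    rw [pow_succ (ambAct _), ← ih, pow_succ σ]
    ext x
    rfl

open Classical in
/-- **(HQ-S), ambient form.**  With `𝔘 = E_S ≤ Additive Lˣ`, `τ` the action of `σ`,
`D = τ - 1`, `N = ∑_{i<p} τ^i` (given as any additive maps with these pointwise values):
`[𝔘 ∩ ker N : D 𝔘] * p ^ a = p * [𝔘 ∩ ker D : N 𝔘]`. -/
theorem sUnits_herbrand_ambient [IsGalois K L] {p : ℕ} (hp : p.Prime) (hdeg : finrank K L = p)
    (hK : IsTotallyComplex K) (σ : L ≃ₐ[K] L) (hσ : σ ≠ 1)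
    (S : Finset (HeightOneSpectrum (𝓞 K)))
    (D N : Additive Lˣ →+ Additive Lˣ)
    (hD : ∀ x, D x = ambAct (σ : L ≃+* L) x - x)
    (hN : ∀ x, N x = ∑ i ∈ Finset.range p, ambAct ((σ ^ i : L ≃ₐ[K] L) : L ≃+* L) x) :
    ((Subgroup.toAddSubgroup ((above (L := L) (S : Set (HeightOneSpectrum (𝓞 K)))).unit L)).map
        D).relIndex
      (Subgroup.toAddSubgroup ((above (L := L) (S : Set (HeightOneSpectrum (𝓞 K)))).unit L) ⊓
        N.ker) ≠ 0 ∧
    ((Subgroup.toAddSubgroup ((above (L := L) (S : Set (HeightOneSpectrum (𝓞 K)))).unit L)).map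
        N).relIndex
      (Subgroup.toAddSubgroup ((above (L := L) (S : Set (HeightOneSpectrum (𝓞 K)))).unit L) ⊓
        D.ker) ≠ 0 ∧
    ((Subgroup.toAddSubgroup ((above (L := L) (S : Set (HeightOneSpectrum (𝓞 K)))).unit L)).map
        D).relIndex
      (Subgroup.toAddSubgroup ((above (L := L) (S : Set (HeightOneSpectrum (𝓞 K)))).unit L) ⊓
        N.ker) * p ^ (S.filter fun v => (fib (L := L) v).ncard = 1).card =
    p * ((Subgroup.toAddSubgroup
        ((above (L := L) (S : Set (HeightOneSpectrum (𝓞 K)))).unit L)).map N).relIndex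
      (Subgroup.toAddSubgroup ((above (L := L) (S : Set (HeightOneSpectrum (𝓞 K)))).unit L) ⊓
        D.ker) := by
  have hmS : ∀ x : SUL K L (S : Set (HeightOneSpectrum (𝓞 K))),
      1 • x ∈ (⊤ : AddSubgroup (SUL K L (S : Set (HeightOneSpectrum (𝓞 K))))) :=
    fun _ => AddSubgroup.mem_top _
  have h := sUnits_herbrand_add' hp hdeg hK σ hσ S ⊤ (fun _ _ => AddSubgroup.mem_top _) 1
    one_ne_zero hmS
  simp only [top_inf_eq] at h
  set ι := sInc (L := L) (S : Set (HeightOneSpectrum (𝓞 K))) with hι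
  have hinj := sInc_injective (L := L) (S : Set (HeightOneSpectrum (𝓞 K)))
  have hr : ι.range = Subgroup.toAddSubgroup
      ((above (L := L) (S : Set (HeightOneSpectrum (𝓞 K)))).unit L) := range_sInc _
  have hD' : ∀ x, ι ((sAddAct (S : Set (HeightOneSpectrum (𝓞 K))) σ - 1 :
      AddMonoid.End (SUL K L (S : Set (HeightOneSpectrum (𝓞 K))))) x) = D (ι x) := by
    intro x
    rw [hD]
    exact sInc_sub_one _ σ x
  have hN' : ∀ x, ι ((∑ i ∈ Finset.range p, sAddAct (S : Set (HeightOneSpectrum (𝓞 K))) σ ^ i :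
      AddMonoid.End (SUL K L (S : Set (HeightOneSpectrum (𝓞 K))))) x) = N (ι x) := by
    intro x
    rw [hN, hι, sInc_sum]
    simp only [ambAct_algEquiv_pow]
    exact AddMonoidHom.finsetSum_apply _ _ _
  have k1 := relIndex_map_top_ker_transport ι hinj _ _ D N hD' hN'
  have k2 := relIndex_map_top_ker_transport ι hinj _ _ N D hN' hD'
  rw [hr] at k1 k2
  rw [k1, k2]
  exact h

end Fermat.Agent.GC.SUnitHQ
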