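/-
GATE-C / C4 (G2-u), cohomological form: the `S`-units of `L` as a `Rep ℤ Gal(L/K)` and the Herbrand
quotient `|H¹| * p ^ a = p * |H²|` on Mathlib's `groupCohomology`.
-/
import Fermat.Agent.GC.SUnitHQ.HQMul
import Fermat.Agent.GC.Tate.CyclicCard
import Fermat.Agent.S14.FirstInequality.Hilbert90

set_option autoImplicit false

open NumberField IsDedekindDomain Module

namespace Fermat.Agent.GC.SUnitHQ

set_option linter.unusedSectionVars false

open Fermat.Agent.GC.CycBridge

variable {K L : Type} [Field K] [NumberField K] [Field L] [NumberField L] [Algebra K L]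

/-- the Galois action on the `S`-units of `L` -/
noncomputable instance sUnitAction (S : Set (HeightOneSpectrum (𝓞 K))) :
    MulDistribMulAction (L ≃ₐ[K] L) ((above (L := L) S).unit L) where
  smul σ x := sAct S σ x
  one_smul x := by
    change sAct S 1 x = x
    rw [sAct_one]; rfl
  mul_smul σ τ x := by
    change sAct S (σ * τ) x = sAct S σ (sAct S τ x)
    rw [sAct_mul]; rfl
  smul_mul σ x y := map_mul (sAct S σ) x y
  smul_one σ := map_one (sAct S σ)

theorem smul_sUnit_def (S : Set (HeightOneSpectrum (𝓞 K))) (σ : L ≃ₐ[K] L)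
    (x : (above (L := L) S).unit L) : σ • x = sAct S σ x := rfl

/-- the `S`-units of `L` as a `ℤ`-linear representation of `Gal(L/K)` -/
noncomputable def sUnitRep (S : Set (HeightOneSpectrum (𝓞 K))) : Rep ℤ (L ≃ₐ[K] L) :=
  Rep.ofMulDistribMulAction (L ≃ₐ[K] L) ((above (L := L) S).unit L)

theorem mDlt_eq_sDlt (S : Set (HeightOneSpectrum (𝓞 K))) (σ : L ≃ₐ[K] L) :
    mDlt (M := (above (L := L) S).unit L) σ = sDlt S σ := rfl

theorem mNrm_eq_sNrm [FiniteDimensional K L] [IsGalois K L] {p : ℕ} (hp : p.Prime)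
    (hdeg : finrank K L = p)
    (S : Set (HeightOneSpectrum (𝓞 K))) (σ : L ≃ₐ[K] L) (hσ : σ ≠ 1) :
    mNrm (L ≃ₐ[K] L) (M := (above (L := L) S).unit L) = sNrm S σ p := by
  have hcard : Nat.card (L ≃ₐ[K] L) = p := by rw [IsGalois.card_aut_eq_finrank, hdeg]
  have : Fact p.Prime := ⟨hp⟩
  have htop : Subgroup.zpowers σ = ⊤ := zpowers_eq_top_of_prime_card hcard hσ
  have hg : ∀ x, x ∈ Subgroup.zpowers σ := fun x => htop ▸ Subgroup.mem_top x
  have hord : orderOf σ = p := by
    rw [orderOf_eq_card_of_forall_mem_zpowers hg, hcard]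
  ext x
  rw [mNrm_apply, sNrm_apply]
  have := Fermat.Agent.S14.FI.Hilbert90.prod_range_orderOf_eq_prod_univ σ hg
    (fun τ => ((τ • x : (above (L := L) S).unit L)))
  rw [hord] at this
  rw [← this]
  rfl

open Classical in
/-- **(HQ-S), cohomological form**: for `L/K` Galois of prime degree `p`, `K` totally complex,
`S` a finite set of primes of `K`, `a` = the number of `v ∈ S` with exactly one prime above:
`|H¹(G, E_S)| * p ^ a = p * |H²(G, E_S)|`, both finite. -/
theorem card_H1_sUnitRep_mul [FiniteDimensional K L] [IsGalois K L] {p : ℕ} (hp : p.Prime) (hdeg : finrank K L = p)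
    (hK : IsTotallyComplex K) (S : Finset (HeightOneSpectrum (𝓞 K))) :
    Nat.card (groupCohomology.H1 (sUnitRep (L := L) (S : Set (HeightOneSpectrum (𝓞 K))))) ≠ 0 ∧
    Nat.card (groupCohomology.H2 (sUnitRep (L := L) (S : Set (HeightOneSpectrum (𝓞 K))))) ≠ 0 ∧
    Nat.card (groupCohomology.H1 (sUnitRep (L := L) (S : Set (HeightOneSpectrum (𝓞 K))))) *
        p ^ (S.filter fun v => (fib (L := L) v).ncard = 1).card =
      p * Nat.card (groupCohomology.H2 (sUnitRep (L := L) (S : Set (HeightOneSpectrum (𝓞 K))))) := by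
  have hcard : Nat.card (L ≃ₐ[K] L) = p := by rw [IsGalois.card_aut_eq_finrank, hdeg]
  have : Fact p.Prime := ⟨hp⟩
  -- a generator
  obtain ⟨σ, hσ⟩ : ∃ σ : L ≃ₐ[K] L, σ ≠ 1 := by
    by_contra h
    simp only [not_exists, not_not] at h
    have : Subsingleton (L ≃ₐ[K] L) := ⟨fun a b => (h a).trans (h b).symm⟩
    have h1 : Nat.card (L ≃ₐ[K] L) ≤ 1 := Finite.card_le_one_iff_subsingleton.mpr this
    rw [hcard] at h1
    exact absurd h1 (by have := hp.two_le; omega)
  have htop : Subgroup.zpowers σ = ⊤ := zpowers_eq_top_of_prime_card hcard hσ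
  have hg : ∀ x, x ∈ Subgroup.zpowers σ := fun x => htop ▸ Subgroup.mem_top x
  have h1 := card_H1_mul_of_group (M := (above (L := L) (S : Set (HeightOneSpectrum (𝓞 K)))).unit L)
    σ hg
  have h2 := card_H2_mul_of_group (M := (above (L := L) (S : Set (HeightOneSpectrum (𝓞 K)))).unit L)
    σ hg
  rw [mDlt_eq_sDlt, mNrm_eq_sNrm hp hdeg _ σ hσ] at h1 h2
  obtain ⟨e1, e2, e3⟩ := sUnits_herbrand_top hp hdeg hK σ hσ S
  unfold sUnitRep
  rw [h1, h2]
  exact ⟨e1, e2, e3⟩

end Fermat.Agent.GC.SUnitHQ
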